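import Fermat.Agent.S28.QRed.KeyFin

/-!
# S28, algebra core, part 7: saturation of the chart `j ≠ 0`, and the three reduction maps.
-/

set_option autoImplicit false

noncomputable section

namespace Fermat.Agent.S28.QRed

open ModularCurve ModularCurve.IgusaScheme Polynomial

/-- `1/j` is transcendental over any coefficient field. -/
theorem eq_zero_of_aeval_inv_jqModC_eq_zero (K : Type*) [Field K] {p : K[X]}
    (hp : aeval (jqModC K)⁻¹ p = 0) : p = 0 := by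
  by_contra hp0
  have h1 : IsAlgebraic K (jqModC K)⁻¹ := ⟨p, hp0, hp⟩
  have h2 : IsAlgebraic K (jqModC K) := by simpa using h1.inv
  obtain ⟨r, hr0, hr⟩ := h2
  exact hr0 (eq_zero_of_aeval_jqModC_eq_zero K hr)

variable (N : ℕ) [NeZero N] (ℓ : ℕ) [Fact ℓ.Prime]

set_option quotPrecheck false in
local notation "Rl" => ↥(GaloisRep.ratLocalizedAt ℓ)

set_option quotPrecheck false in
local notation "FF" => ↥(modularFunctionFieldFull N)

/-! ### The coordinate `1/j` -/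

theorem jFull_inv_mem_Vring : valF N (jFull N)⁻¹ ∈ Vring ℓ := by
  have hJ : jqModC Rl ∈ (RingHom.ker (red ℓ)).primeCompl := by
    intro h
    have h' : red ℓ (jqModC Rl) = 0 := h
    rw [red_jqModC] at h'
    exact jqModC_ne_zero_of_nontrivial (ZMod ℓ) h'
  refine ⟨IsLocalization.mk' (Ploc ℓ) 1 ⟨jqModC Rl, hJ⟩, ?_⟩
  have h1 := toQ_mk'_mul ℓ 1 ⟨jqModC Rl, hJ⟩
  simp only [map_one] at h1
  rw [iota_jqModC] at h1
  rw [map_inv₀, valF_jFull]
  exact eq_inv_of_mul_eq_one_left h1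

theorem redV_jFull_inv :
    redV ℓ ⟨valF N (jFull N)⁻¹, jFull_inv_mem_Vring N ℓ⟩ = (jqModC (ZMod ℓ))⁻¹ := by
  apply eq_inv_of_mul_eq_one_left
  rw [← redV_jFull N ℓ, ← map_mul]
  have : (⟨valF N (jFull N)⁻¹, jFull_inv_mem_Vring N ℓ⟩ : Vring ℓ) *
      ⟨valF N (jFull N), jFull_mem_Vring N ℓ⟩ = 1 := by
    apply Subtype.ext
    show valF N (jFull N)⁻¹ * valF N (jFull N) = 1
    rw [← map_mul, inv_mul_cancel₀ (jFull_ne_zero N), map_one]
  rw [this, map_one]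

theorem evF_jFull_inv_injective : Function.Injective (evF N ℓ (jFull N)⁻¹) :=
  evF_injective N ℓ _ (jFull_inv_mem_Vring N ℓ) (fun c hc => by
    rw [redV_jFull_inv] at hc
    exact eq_zero_of_aeval_inv_jqModC_eq_zero _ hc)

/-- **KEY for the chart `j ≠ 0`**: the chart algebra is saturated in `V ∩ F`. -/
theorem key_inf {n : ℕ} {β : Fin n → LaurentSeries Rl} (H : Interface N ℓ n β) (z : FF)
    (hzV : valF N z ∈ Vring ℓ) (hz : (ℓ : FF) * z ∈ chartAlgInf N ℓ) :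
    z ∈ chartAlgInf N ℓ := by
  have hj0 := jFull_ne_zero N
  have hmid : (ℓ : FF) * z ∈ chartAlg N ℓ (insert (jFull N)⁻¹ {jFull N}) := by
    rw [show insert (jFull N)⁻¹ ({jFull N} : Set FF) = {jFull N, (jFull N)⁻¹}
      from Set.pair_comm _ _]
    exact chartAlg_mono N ℓ (sInf_subset N) hz
  obtain ⟨e, he⟩ := exists_pow_mul_mem_chartAlg (Set.mem_singleton _) hj0 hmid
  have hz1V : valF N (jFull N ^ e * z) ∈ Vring ℓ := by
    rw [map_mul, map_pow]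
    exact mul_mem (pow_mem (jFull_mem_Vring N ℓ) e) hzV
  have hz1 : jFull N ^ e * z ∈ chartAlgFin N ℓ :=
    key_fin N ℓ H _ hz1V (by rw [mul_left_comm]; exact he)
  have hmid2 : jFull N ^ e * z ∈ chartAlg N ℓ (insert ((jFull N)⁻¹)⁻¹ {(jFull N)⁻¹}) := by
    rw [inv_inv]
    exact chartAlg_mono N ℓ (sFin_subset N) hz1
  obtain ⟨M, hM⟩ := exists_pow_mul_mem_chartAlg (Set.mem_singleton _) (inv_ne_zero hj0) hmid2
  have hM' : (jFull N)⁻¹ ^ M * z ∈ chartAlgInf N ℓ := by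
    have h0 : (jFull N)⁻¹ ∈ chartAlgInf N ℓ :=
      subset_chartAlg N ℓ {(jFull N)⁻¹} (Set.mem_singleton _)
    have h1 : (jFull N)⁻¹ ^ e ∈ chartAlgInf N ℓ := pow_mem h0 e
    have h2 := mul_mem h1 hM
    have h3 : (jFull N)⁻¹ ^ e * ((jFull N)⁻¹ ^ M * (jFull N ^ e * z)) =
        (jFull N)⁻¹ ^ M * z := by
      have h4 : (jFull N)⁻¹ ^ e * jFull N ^ e = 1 := by
        rw [← mul_pow, inv_mul_cancel₀ hj0, one_pow]
      calc (jFull N)⁻¹ ^ e * ((jFull N)⁻¹ ^ M * (jFull N ^ e * z))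
          = (jFull N)⁻¹ ^ M * ((jFull N)⁻¹ ^ e * jFull N ^ e) * z := by ring
        _ = (jFull N)⁻¹ ^ M * z := by rw [h4, mul_one]
    rwa [h3] at h2
  have h₁ : (evF N ℓ (jFull N)⁻¹).IsIntegralElem (evF N ℓ (jFull N)⁻¹ (C (lR ℓ)) * z) := by
    rw [evF_C_lR]
    exact (isIntegral_adjoin_singleton_iff (jFull N)⁻¹ _).mp ((mem_chartAlg_iff N ℓ).mp hz)
  have h₂ : (evF N ℓ (jFull N)⁻¹).IsIntegralElem (evF N ℓ (jFull N)⁻¹ (X ^ M) * z) := by
    rw [map_pow, evF_X]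
    exact (isIntegral_adjoin_singleton_iff (jFull N)⁻¹ _).mp ((mem_chartAlg_iff N ℓ).mp hM')
  have hX : (X ^ M : Rl[X]).map (rho0 ℓ) ≠ 0 := by
    rw [Polynomial.map_pow, map_X]
    exact pow_ne_zero _ X_ne_zero
  have h := isIntegralElem_of_two_multiples (evF N ℓ (jFull N)⁻¹)
    (evF_jFull_inv_injective N ℓ) z (C (lR ℓ)) (X ^ M) (C_lR_ne_zero ℓ)
    (pow_ne_zero _ X_ne_zero) h₁ h₂
    (fun k a b hab => poly_pow_dvd_of_mul_eq ℓ k a b ((X ^ M) ^ k)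
      (by rw [Polynomial.map_pow]; exact pow_ne_zero _ hX) hab)
  exact (mem_chartAlg_iff N ℓ).mpr ((isIntegral_adjoin_singleton_iff (jFull N)⁻¹ z).mpr h)

/-! ### The three reduction maps -/

/-- **Core, chart `j ≠ ∞`.** -/
theorem exists_rho_fin_of_interface {n : ℕ} {β : Fin n → LaurentSeries Rl}
    (H : Interface N ℓ n β) :
    ∃ ρ : chartAlgFin N ℓ →+* LaurentSeries (ZMod ℓ),
      RingHom.ker ρ = Ideal.span {(ℓ : chartAlgFin N ℓ)} :=
  ⟨redChart N ℓ {jFull N} (by rintro s rfl; exact jFull_mem_Vring N ℓ),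
    ker_redChart N ℓ _ _ (fun z hzV hz => key_fin N ℓ H z hzV hz)⟩

/-- **Core, chart `j ≠ 0`.** -/
theorem exists_rho_inf_of_interface {n : ℕ} {β : Fin n → LaurentSeries Rl}
    (H : Interface N ℓ n β) :
    ∃ ρ : chartAlgInf N ℓ →+* LaurentSeries (ZMod ℓ),
      RingHom.ker ρ = Ideal.span {(ℓ : chartAlgInf N ℓ)} :=
  ⟨redChart N ℓ {(jFull N)⁻¹} (by rintro s rfl; exact jFull_inv_mem_Vring N ℓ),
    ker_redChart N ℓ _ _ (fun z hzV hz => key_inf N ℓ H z hzV hz)⟩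

/-- **Core, overlap** (unconditional). -/
theorem nonempty_rho_mid : Nonempty (chartAlgMid N ℓ →+* LaurentSeries (ZMod ℓ)) :=
  ⟨redChart N ℓ {jFull N, (jFull N)⁻¹} (by
    rintro s (rfl | rfl)
    · exact jFull_mem_Vring N ℓ
    · exact jFull_inv_mem_Vring N ℓ)⟩

end Fermat.Agent.S28.QRed
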