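import Fermat.Agent.S28.Defs
import Fermat.Agent.S28.QRed.KeyInf

/-!
# S28, algebra core (Part III of the skeleton `Fermat/Agent/S28/Skeleton.lean`):
the reduction maps `rho` on the three chart algebras, from the three hypotheses of `CoreHyp`
(stated unbundled here, with the eta-quotient unit `yUnit` of `Fermat/Agent/S28/Defs.lean`).
-/

set_option autoImplicit false

noncomputable section

namespace Fermat.Agent.S28.QRed

open ModularCurve ModularCurve.IgusaScheme Polynomial

/-! ### Functoriality of the eta-quotient unit in the coefficient ring -/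

section Functoriality

variable {R S : Type*} [CommRing R] [CommRing S] (f : R →+* S)

theorem coeffMap_deltaUnit :
    coeffMap f (deltaUnit R : LaurentSeries R) = (deltaUnit S : LaurentSeries S) := by
  show coeffMap f (HahnSeries.single (1 : ℤ) (1 : R) *
      HahnSeries.ofPowerSeries ℤ R (dedekindEtaUnit.map (Int.castRingHom R))) =
    HahnSeries.single (1 : ℤ) (1 : S) *
      HahnSeries.ofPowerSeries ℤ S (dedekindEtaUnit.map (Int.castRingHom S))
  rw [map_mul, coeffMap_single, map_one, coeffMap_ofPowerSeries,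
    ← RingHom.comp_apply (PowerSeries.map f) (PowerSeries.map (Int.castRingHom R)),
    ← PowerSeries.map_comp, RingHom.ext_int (f.comp (Int.castRingHom R)) (Int.castRingHom S)]

theorem map_deltaUnit :
    Units.map (coeffMap f : LaurentSeries R →* LaurentSeries S) (deltaUnit R) = deltaUnit S :=
  Units.ext (coeffMap_deltaUnit f)

theorem map_deltaUnitAt' (d : ℕ) :
    Units.map (coeffMap f : LaurentSeries R →* LaurentSeries S) (deltaUnitAt' R d) =
      deltaUnitAt' S d := by
  unfold deltaUnitAt'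
  split_ifs with h
  · simp
  · haveI : NeZero d := ⟨h⟩
    apply Units.ext
    show coeffMap f (qExpand R d (deltaUnit R : LaurentSeries R)) =
      qExpand S d (deltaUnit S : LaurentSeries S)
    rw [coeffMap_qExpand, coeffMap_deltaUnit]

theorem map_yUnit (N : ℕ) :
    Units.map (coeffMap f : LaurentSeries R →* LaurentSeries S) (yUnit R N) = yUnit S N := by
  unfold yUnit
  rw [map_mul, map_prod, map_zpow, map_deltaUnit]
  congr 1
  exact Finset.prod_congr rfl fun d _ => by rw [map_zpow, map_deltaUnitAt']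

theorem coeffMap_yUnit (N : ℕ) :
    coeffMap f (yUnit R N : LaurentSeries R) = (yUnit S N : LaurentSeries S) :=
  congrArg Units.val (map_yUnit f N)

end Functoriality

variable (N : ℕ) [NeZero N] (ℓ : ℕ) [Fact ℓ.Prime]

set_option quotPrecheck false in
local notation "Rl" => ↥(GaloisRep.ratLocalizedAt ℓ)

omit [Fact ℓ.Prime] in
theorem iota_yUnit : iota ℓ (yUnit Rl N : LaurentSeries Rl) = (yUnit ℚ N : LaurentSeries ℚ) :=
  coeffMap_yUnit _ N

theorem red_yUnit :
    red ℓ (yUnit Rl N : LaurentSeries Rl) = (yUnit (ZMod ℓ) N : LaurentSeries (ZMod ℓ)) :=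
  coeffMap_yUnit _ N

theorem aeval_jq_eq_valF_comp_evF :
    ((aeval jq : Rl[X] →ₐ[Rl] LaurentSeries ℚ) : Rl[X] →+* LaurentSeries ℚ) =
      (valF N).comp (evF N ℓ (jFull N)) := by
  have h : algebraMap Rl (LaurentSeries ℚ) =
      (algebraMap ℚ (LaurentSeries ℚ)).comp (GaloisRep.ratLocalizedAt ℓ).subtype := by
    apply IsLocalization.ringHom_ext (Ideal.span {(ℓ : ℤ)}).primeCompl
    exact RingHom.ext_int _ _
  apply Polynomial.ringHom_ext
  · intro a
    simp only [RingHom.comp_apply, RingHom.coe_coe, aeval_C, evF_C, valF_algebraMap]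
    exact RingHom.congr_fun h a
  · simp only [RingHom.comp_apply, RingHom.coe_coe, aeval_X, evF_X]
    rfl

theorem isIntegralElem_pow {A B : Type*} [CommRing A] [CommRing B] (φ : A →+* B) {x : B}
    (hx : φ.IsIntegralElem x) (k : ℕ) : φ.IsIntegralElem (x ^ k) := by
  induction k with
  | zero => rw [pow_zero]; exact RingHom.isIntegralElem_one φ
  | succ k ih => rw [pow_succ]; exact RingHom.IsIntegralElem.mul φ ih hx

/-- The powers of the eta-quotient unit satisfy the interface of the algebra core. -/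
theorem interface_of_yUnit (n : ℕ)
    (hint : IsIntegral (Algebra.adjoin Rl {jq}) (yUnit ℚ N : LaurentSeries ℚ))
    (hindep : ∀ a : Fin n → (ZMod ℓ)[X],
      ∑ i, Polynomial.aeval (jqModC (ZMod ℓ)) (a i) *
        (yUnit (ZMod ℓ) N : LaurentSeries (ZMod ℓ)) ^ (i : ℕ) = 0 → a = 0)
    (hspan : ∀ x : LaurentSeries ℚ, x ∈ modularFunctionFieldFull N →
      ∃ (b : ℚ[X]) (a : Fin n → ℚ[X]), b ≠ 0 ∧
        x * Polynomial.aeval jq b =
          ∑ i, Polynomial.aeval jq (a i) * (yUnit ℚ N : LaurentSeries ℚ) ^ (i : ℕ)) :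
    Interface N ℓ n (fun i => (yUnit Rl N : LaurentSeries Rl) ^ (i : ℕ)) where
  integral := fun i => by
    have h1 := (isIntegral_adjoin_singleton_iff jq _).mp hint
    rw [aeval_jq_eq_valF_comp_evF N ℓ] at h1
    rw [map_pow, iota_yUnit]
    exact isIntegralElem_pow _ h1 _
  indep := fun a h => hindep a (by
    rw [← h]
    exact Finset.sum_congr rfl fun i _ => by rw [map_pow, red_yUnit])
  span := fun x hx => by
    obtain ⟨b, a, hb, h⟩ := hspan x hx
    refine ⟨b, a, hb, ?_⟩
    rw [h]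
    exact Finset.sum_congr rfl fun i _ => by rw [map_pow, iota_yUnit]

/-- **Part III** for the chart `j ≠ ∞` (statement of `exists_rho_fin` in the skeleton, with the
fields of `CoreHyp` as separate hypotheses). -/
theorem exists_rho_fin (n : ℕ)
    (hint : IsIntegral (Algebra.adjoin Rl {jq}) (yUnit ℚ N : LaurentSeries ℚ))
    (hindep : ∀ a : Fin n → (ZMod ℓ)[X],
      ∑ i, Polynomial.aeval (jqModC (ZMod ℓ)) (a i) *
        (yUnit (ZMod ℓ) N : LaurentSeries (ZMod ℓ)) ^ (i : ℕ) = 0 → a = 0)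
    (hspan : ∀ x : LaurentSeries ℚ, x ∈ modularFunctionFieldFull N →
      ∃ (b : ℚ[X]) (a : Fin n → ℚ[X]), b ≠ 0 ∧
        x * Polynomial.aeval jq b =
          ∑ i, Polynomial.aeval jq (a i) * (yUnit ℚ N : LaurentSeries ℚ) ^ (i : ℕ)) :
    ∃ ρ : chartAlgFin N ℓ →+* LaurentSeries (ZMod ℓ),
      RingHom.ker ρ = Ideal.span {(ℓ : chartAlgFin N ℓ)} :=
  exists_rho_fin_of_interface N ℓ (interface_of_yUnit N ℓ n hint hindep hspan)

/-- **Part III** for the chart `j ≠ 0`. -/
theorem exists_rho_inf (n : ℕ)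
    (hint : IsIntegral (Algebra.adjoin Rl {jq}) (yUnit ℚ N : LaurentSeries ℚ))
    (hindep : ∀ a : Fin n → (ZMod ℓ)[X],
      ∑ i, Polynomial.aeval (jqModC (ZMod ℓ)) (a i) *
        (yUnit (ZMod ℓ) N : LaurentSeries (ZMod ℓ)) ^ (i : ℕ) = 0 → a = 0)
    (hspan : ∀ x : LaurentSeries ℚ, x ∈ modularFunctionFieldFull N →
      ∃ (b : ℚ[X]) (a : Fin n → ℚ[X]), b ≠ 0 ∧
        x * Polynomial.aeval jq b =
          ∑ i, Polynomial.aeval jq (a i) * (yUnit ℚ N : LaurentSeries ℚ) ^ (i : ℕ)) :
    ∃ ρ : chartAlgInf N ℓ →+* LaurentSeries (ZMod ℓ),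
      RingHom.ker ρ = Ideal.span {(ℓ : chartAlgInf N ℓ)} :=
  exists_rho_inf_of_interface N ℓ (interface_of_yUnit N ℓ n hint hindep hspan)

/-- **Part III** for the overlap (no hypothesis needed). -/
theorem exists_rho_mid : Nonempty (chartAlgMid N ℓ →+* LaurentSeries (ZMod ℓ)) :=
  nonempty_rho_mid N ℓ

end Fermat.Agent.S28.QRed
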