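import Mathlib
import Fermat.Prelude.Def_ModularCurve_IgusaScheme
import Fermat.Prelude.Def_ModularCurve_X0ModL

/-!
# S28, algebra core, part 1: the ring `Z_(l)`, Laurent series over it, and the
valuation ring `V` of `l`-integral quotients inside `Q((q))`.
-/

set_option autoImplicit false

noncomputable section

namespace Fermat.Agent.S28.QRed

open ModularCurve

variable (ℓ : ℕ) [Fact ℓ.Prime]

set_option quotPrecheck false in
local notation "Rl" => ↥(GaloisRep.ratLocalizedAt ℓ)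

/-! ### The ring `Z_(l)` -/

omit [Fact ℓ.Prime] in
theorem mem_ratLoc_iff (x : ℚ) : x ∈ GaloisRep.ratLocalizedAt ℓ ↔ x.den.Coprime ℓ := Iff.rfl

omit [Fact ℓ.Prime] in
theorem intCast_mem_ratLoc (m : ℤ) : (m : ℚ) ∈ GaloisRep.ratLocalizedAt ℓ := by
  rw [mem_ratLoc_iff]; simp

omit [Fact ℓ.Prime] in
theorem inv_natCast_mem_ratLoc {d : ℕ} (hd : d.Coprime ℓ) :
    ((d : ℚ)⁻¹) ∈ GaloisRep.ratLocalizedAt ℓ := by
  rw [mem_ratLoc_iff, Rat.inv_natCast_den]
  split_ifs with h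
  · simp
  · exact hd

theorem not_dvd_den (x : Rl) : ¬ ℓ ∣ (x : ℚ).den := by
  intro h
  have hx : (x : ℚ).den.Coprime ℓ := x.2
  have h1 : ℓ ∣ Nat.gcd (x : ℚ).den ℓ := Nat.dvd_gcd h dvd_rfl
  rw [hx] at h1
  exact (Fact.out : ℓ.Prime).one_lt.ne' (Nat.dvd_one.mp h1)

theorem den_cast_ne_zero (x : Rl) : (((x : ℚ).den : ℕ) : ZMod ℓ) ≠ 0 := by
  rw [Ne, ZMod.natCast_eq_zero_iff]
  exact not_dvd_den ℓ x

/-- Reduction `Z_(l) → F_l`. -/
def rho0 : Rl →+* ZMod ℓ where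
  toFun x := ((x : ℚ) : ZMod ℓ)
  map_one' := by simp
  map_mul' x y := by
    show (((x * y : Rl) : ℚ) : ZMod ℓ) = _
    rw [Subring.coe_mul]
    exact Rat.cast_mul_of_ne_zero (den_cast_ne_zero ℓ x) (den_cast_ne_zero ℓ y)
  map_zero' := by simp
  map_add' x y := by
    show (((x + y : Rl) : ℚ) : ZMod ℓ) = _
    rw [Subring.coe_add]
    exact Rat.cast_add_of_ne_zero (den_cast_ne_zero ℓ x) (den_cast_ne_zero ℓ y)

theorem rho0_apply (x : Rl) : rho0 ℓ x = ((x : ℚ) : ZMod ℓ) := rfl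

/-- The prime `l` as an element of `Z_(l)`. -/
def lR : Rl := (ℓ : Rl)

omit [Fact ℓ.Prime] in
theorem coe_lR : ((lR ℓ : Rl) : ℚ) = (ℓ : ℚ) := by
  simp [lR]

theorem lR_ne_zero : lR ℓ ≠ 0 := by
  intro h
  have := congrArg (Subtype.val) h
  rw [coe_lR] at this
  exact (Nat.cast_ne_zero.mpr (Fact.out : ℓ.Prime).ne_zero) this

theorem rho0_lR : rho0 ℓ (lR ℓ) = 0 := by
  rw [rho0_apply, coe_lR]
  simp

theorem rho0_eq_zero_iff (x : Rl) : rho0 ℓ x = 0 ↔ ∃ y : Rl, x = lR ℓ * y := by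
  constructor
  · intro h
    rw [rho0_apply, Rat.cast_def, div_eq_zero_iff] at h
    rcases h with h | h
    · rw [ZMod.intCast_zmod_eq_zero_iff_dvd] at h
      obtain ⟨m, hm⟩ := h
      refine ⟨⟨(m : ℚ) * (((x : ℚ).den : ℚ)⁻¹), ?_⟩, ?_⟩
      · exact Subring.mul_mem _ (intCast_mem_ratLoc ℓ m) (inv_natCast_mem_ratLoc ℓ x.2)
      · apply Subtype.ext
        rw [Subring.coe_mul, coe_lR]
        show (x : ℚ) = (ℓ : ℚ) * ((m : ℚ) * (((x : ℚ).den : ℚ)⁻¹))
        have h1 : ((x : ℚ).num : ℚ) / ((x : ℚ).den : ℚ) = (x : ℚ) := Rat.num_div_den _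
        have h2 : ((x : ℚ).num : ℚ) = (ℓ : ℚ) * (m : ℚ) := by
          have := congrArg (Int.cast : ℤ → ℚ) hm
          simpa using this
        calc (x : ℚ) = ((x : ℚ).num : ℚ) / ((x : ℚ).den : ℚ) := h1.symm
          _ = (ℓ : ℚ) * (m : ℚ) / ((x : ℚ).den : ℚ) := by rw [h2]
          _ = (ℓ : ℚ) * ((m : ℚ) * (((x : ℚ).den : ℚ)⁻¹)) := by ring
    · exact absurd h (den_cast_ne_zero ℓ x)
  · rintro ⟨y, rfl⟩
    rw [map_mul, rho0_lR, zero_mul]

theorem rho0_surjective : Function.Surjective (rho0 ℓ) := by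
  intro c
  have : NeZero ℓ := ⟨(Fact.out : ℓ.Prime).ne_zero⟩
  refine ⟨⟨((ZMod.val c : ℕ) : ℚ), ?_⟩, ?_⟩
  · have := intCast_mem_ratLoc ℓ ((ZMod.val c : ℕ) : ℤ)
    simpa using this
  · show (((ZMod.val c : ℕ) : ℚ) : ZMod ℓ) = c
    rw [Rat.cast_natCast, ZMod.natCast_zmod_val]

omit [Fact ℓ.Prime] in
theorem coe_algebraMap_int (y : ℤ) : ((algebraMap ℤ Rl y : Rl) : ℚ) = (y : ℚ) := by
  simp

theorem lR_not_isUnit : ¬ IsUnit (lR ℓ) := by
  intro h
  have := h.map (rho0 ℓ)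
  rw [rho0_lR] at this
  exact not_isUnit_zero this

instance isLocalization_ratLoc :
    IsLocalization (Ideal.span {(ℓ : ℤ)}).primeCompl Rl := by
  have : (Ideal.span {(ℓ : ℤ)}).IsPrime := by
    rw [Ideal.span_singleton_prime (by exact_mod_cast (Fact.out : ℓ.Prime).ne_zero)]
    exact Nat.prime_iff_prime_int.mp Fact.out
  refine (isLocalization_iff _ _).mpr ⟨?_, ?_, ?_⟩
  · rintro ⟨y, hy⟩
    have hy' : ¬ (ℓ : ℤ) ∣ y := by
      intro h
      exact hy (Ideal.mem_span_singleton.mpr h)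
    have hcop : y.natAbs.Coprime ℓ := by
      rw [Nat.coprime_comm, (Fact.out : ℓ.Prime).coprime_iff_not_dvd]
      intro h
      exact hy' (Int.natCast_dvd.mpr h)
    have hy0 : (y : ℚ) ≠ 0 := by
      intro h
      apply hy'
      have : y = 0 := by exact_mod_cast h
      rw [this]
      exact dvd_zero _
    have hmem : ((y : ℚ)⁻¹) ∈ GaloisRep.ratLocalizedAt ℓ := by
      have h1 := inv_natCast_mem_ratLoc ℓ hcop
      rcases Int.natAbs_eq y with h | h
      · have : (y : ℚ)⁻¹ = ((y.natAbs : ℚ))⁻¹ := by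
          conv_lhs => rw [h]
          rw [Int.cast_natCast]
        rw [this]; exact h1
      · have : (y : ℚ)⁻¹ = -((y.natAbs : ℚ))⁻¹ := by
          conv_lhs => rw [h]
          rw [Int.cast_neg, Int.cast_natCast, inv_neg]
        rw [this]; exact Subring.neg_mem _ h1
    refine IsUnit.of_mul_eq_one ⟨(y : ℚ)⁻¹, hmem⟩ (Subtype.ext ?_)
    rw [Subring.coe_mul, Subring.coe_one]
    show ((algebraMap ℤ Rl y : Rl) : ℚ) * (y : ℚ)⁻¹ = 1
    rw [coe_algebraMap_int, mul_inv_cancel₀ hy0]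
  · intro z
    have hz : ((z : ℚ).den : ℤ) ∈ (Ideal.span {(ℓ : ℤ)}).primeCompl := by
      intro h
      have h' : ((z : ℚ).den : ℤ) ∈ Ideal.span {(ℓ : ℤ)} := h
      rw [Ideal.mem_span_singleton] at h'
      exact not_dvd_den ℓ z (Int.natCast_dvd_natCast.mp h')
    refine ⟨((z : ℚ).num, ⟨((z : ℚ).den : ℤ), hz⟩), Subtype.ext ?_⟩
    rw [Subring.coe_mul]
    show (z : ℚ) * ((algebraMap ℤ Rl (((z : ℚ).den : ℤ)) : Rl) : ℚ) =
      ((algebraMap ℤ Rl ((z : ℚ).num) : Rl) : ℚ)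
    rw [coe_algebraMap_int, coe_algebraMap_int]
    push_cast
    exact Rat.mul_den_eq_num _
  · intro x y h
    refine ⟨1, ?_⟩
    have h' : ((algebraMap ℤ Rl x : Rl) : ℚ) = ((algebraMap ℤ Rl y : Rl) : ℚ) := congrArg (Subtype.val) h
    rw [coe_algebraMap_int, coe_algebraMap_int] at h'
    have : x = y := by exact_mod_cast h'
    rw [this]

instance isIntegrallyClosed_ratLoc : IsIntegrallyClosed Rl := by
  have : (Ideal.span {(ℓ : ℤ)}).IsPrime := by
    rw [Ideal.span_singleton_prime (by exact_mod_cast (Fact.out : ℓ.Prime).ne_zero)]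
    exact Nat.prime_iff_prime_int.mp Fact.out
  exact isIntegrallyClosed_of_isLocalization Rl (Ideal.span {(ℓ : ℤ)}).primeCompl
    (Ideal.primeCompl_le_nonZeroDivisors _)

instance isNoetherianRing_ratLoc : IsNoetherianRing Rl :=
  IsLocalization.isNoetherianRing (Ideal.span {(ℓ : ℤ)}).primeCompl Rl inferInstance

theorem finiteMultiplicity_lR {c : Rl} (hc : c ≠ 0) : FiniteMultiplicity (lR ℓ) c :=
  FiniteMultiplicity.of_not_isUnit (lR_not_isUnit ℓ) hc

/-- Any algebra structure of `Z_(l)` on a field of characteristic `l` factors through `F_l`. -/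
theorem algebraMap_eq_castHom_rho0 (K : Type*) [Field K] [CharP K ℓ] [Algebra Rl K] :
    algebraMap Rl K = (ZMod.castHom (dvd_refl ℓ) K).comp (rho0 ℓ) := by
  apply IsLocalization.ringHom_ext (Ideal.span {(ℓ : ℤ)}).primeCompl
  exact RingHom.ext_int _ _

end Fermat.Agent.S28.QRed
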