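import Fermat.Agent.S28.QRed.Generic

/-!
# S28, algebra core, part 4: the chart algebras inside the valuation ring `V`, and the reduction
of the "kernel of reduction is `(l)`" statement to a saturation property (`KEY`).
-/

set_option autoImplicit false

noncomputable section

namespace Fermat.Agent.S28.QRed

open ModularCurve ModularCurve.IgusaScheme Polynomial

/-! ### Generalities on Laurent series -/

theorem algebraMap_laurent_eq_single (K : Type*) [CommRing K] (c : K) :
    algebraMap K (LaurentSeries K) c = HahnSeries.single 0 c := by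
  have h1 : algebraMap K (PowerSeries K) c = PowerSeries.C c := by simp
  rw [HahnSeries.algebraMap_apply', h1, HahnSeries.ofPowerSeries_C]
  rfl

/-- `j` is transcendental over any coefficient ring. -/
theorem eq_zero_of_aeval_jqModC_eq_zero (K : Type*) [CommRing K] {p : K[X]}
    (hp : aeval (jqModC K) p = 0) : p = 0 := by
  by_contra hp0
  set n := p.natDegree with hn
  have hcoeff : (aeval (jqModC K) p).coeff (-(n : ℤ)) = p.coeff n := by
    rw [aeval_def, eval₂_eq_sum_range, HahnSeries.coeff_sum, Finset.sum_eq_single n]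
    · rw [algebraMap_laurent_eq_single, HahnSeries.coeff_single_zero_mul,
        coeff_jqModC_pow_self, mul_one]
    · intro i hi hin
      have hilt : i < n := lt_of_le_of_ne (Nat.lt_succ_iff.mp (Finset.mem_range.mp hi)) hin
      rw [algebraMap_laurent_eq_single, HahnSeries.coeff_single_zero_mul,
        coeff_jqModC_pow_of_lt, mul_zero]
      omega
    · intro hn'
      exact absurd (Finset.self_mem_range_succ n) hn'
  rw [hp] at hcoeff
  simp only [HahnSeries.coeff_zero] at hcoeff
  exact hp0 (leadingCoeff_eq_zero.mp hcoeff.symm)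

/-- integrality over `R[t]` in terms of the evaluation homomorphism. -/
theorem isIntegral_adjoin_singleton_iff {R B : Type*} [CommRing R] [CommRing B] [Algebra R B]
    (t x : B) :
    IsIntegral (Algebra.adjoin R {t}) x ↔
      ((aeval t : R[X] →ₐ[R] B) : R[X] →+* B).IsIntegralElem x := by
  have hrange : ∀ y : B, y ∈ Algebra.adjoin R {t} ↔ ∃ c : R[X], aeval t c = y := by
    intro y
    rw [Algebra.adjoin_singleton_eq_range_aeval]
    rfl
  let g : R[X] →+* Algebra.adjoin R {t} :=
    RingHom.codRestrict ((aeval t : R[X] →ₐ[R] B) : R[X] →+* B) (Algebra.adjoin R {t})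
      (fun c => (hrange _).mpr ⟨c, rfl⟩)
  have hg : (algebraMap (Algebra.adjoin R {t}) B).comp g =
      ((aeval t : R[X] →ₐ[R] B) : R[X] →+* B) := by
    ext <;> rfl
  constructor
  · rintro ⟨p, hp, hpx⟩
    have hlifts : p ∈ lifts g := by
      rw [lifts_iff_coeff_lifts]
      intro i
      obtain ⟨c, hc⟩ := (hrange _).mp (p.coeff i).2
      exact ⟨c, Subtype.ext hc⟩
    obtain ⟨q, hq, -, hqm⟩ := lifts_and_natDegree_eq_and_monic hlifts hp
    refine ⟨q, hqm, ?_⟩
    rw [← hg, ← eval₂_map, hq]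
    exact hpx
  · rintro ⟨p, hp, hpx⟩
    refine ⟨p.map g, hp.map g, ?_⟩
    rw [eval₂_map, hg]
    exact hpx

/-- ring-hom version of `isIntegral_of_two_multiples`. -/
theorem isIntegralElem_of_two_multiples {D F : Type*} [CommRing D] [IsDomain D]
    [IsIntegrallyClosed D] [Field F] (φ : D →+* F) (hφ : Function.Injective φ)
    (z : F) (s₁ s₂ : D) (hs₁ : s₁ ≠ 0) (hs₂ : s₂ ≠ 0)
    (h₁ : φ.IsIntegralElem (φ s₁ * z)) (h₂ : φ.IsIntegralElem (φ s₂ * z))
    (hdiv : ∀ (k : ℕ) (a b : D), a * s₂ ^ k = b * s₁ ^ k → s₁ ^ k ∣ a) :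
    φ.IsIntegralElem z := by
  letI : Algebra D F := φ.toAlgebra
  haveI : FaithfulSMul D F := (faithfulSMul_iff_algebraMap_injective D F).mpr hφ
  have h₁' : IsIntegral D (s₁ • z) := by
    rw [Algebra.smul_def]; exact h₁
  have h₂' : IsIntegral D (s₂ • z) := by
    rw [Algebra.smul_def]; exact h₂
  exact isIntegral_of_two_multiples z s₁ s₂ hs₁ hs₂ h₁' h₂' hdiv

variable (ℓ : ℕ) [Fact ℓ.Prime]

set_option quotPrecheck false in
local notation "Rl" => ↥(GaloisRep.ratLocalizedAt ℓ)

/-! ### Polynomials over `Z_(l)` -/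

theorem C_lR_ne_zero : (C (lR ℓ) : Rl[X]) ≠ 0 := by
  rw [Ne, C_eq_zero]
  exact lR_ne_zero ℓ

/-- `l` is prime in `Z_(l)[X]`, in the form needed for `isIntegral_of_two_multiples`. -/
theorem poly_pow_dvd_of_mul_eq (k : ℕ) : ∀ (a b s : Rl[X]), s.map (rho0 ℓ) ≠ 0 →
    a * s = b * C (lR ℓ) ^ k → C (lR ℓ) ^ k ∣ a := by
  induction k with
  | zero => intro a b s _ _; simp
  | succ k ih =>
    intro a b s hs h
    have h0 : a.map (rho0 ℓ) = 0 := by
      have := congrArg (Polynomial.map (rho0 ℓ)) h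
      rw [Polynomial.map_mul, Polynomial.map_mul, Polynomial.map_pow, map_C, rho0_lR, C_0,
        zero_pow (Nat.succ_ne_zero k), mul_zero] at this
      exact (mul_eq_zero.mp this).resolve_right hs
    obtain ⟨a', rfl⟩ := poly_eq_C_mul_of_map_eq_zero ℓ a h0
    have h' : a' * s = b * C (lR ℓ) ^ k := by
      apply mul_left_cancel₀ (C_lR_ne_zero ℓ)
      rw [← mul_assoc, h, pow_succ]
      ring
    obtain ⟨c, rfl⟩ := ih a' b s hs h'
    exact ⟨c, by rw [pow_succ]; ring⟩

/-! ### Constants in `V` -/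

theorem lW_eq_natCast : lW ℓ = (ℓ : LaurentSeries Rl) := by
  rw [lW, lR, map_natCast]

theorem iota_lW : iota ℓ (lW ℓ) = (ℓ : LaurentSeries ℚ) := by
  rw [lW_eq_natCast, map_natCast]

theorem natCast_ne_zero_laurent : (ℓ : LaurentSeries ℚ) ≠ 0 := by
  rw [← iota_lW]
  exact iota_ne_zero ℓ (lW_ne_zero ℓ)

omit [Fact ℓ.Prime] in
theorem iota_C (a : Rl) : iota ℓ (HahnSeries.C a) = algebraMap ℚ (LaurentSeries ℚ) (a : ℚ) := by
  rw [algebraMap_laurent_eq_single, HahnSeries.C_apply, iota, coeffMap_single]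
  rfl

theorem red_C (a : Rl) :
    red ℓ (HahnSeries.C a) = algebraMap (ZMod ℓ) (LaurentSeries (ZMod ℓ)) (rho0 ℓ a) := by
  rw [algebraMap_laurent_eq_single, HahnSeries.C_apply, red, coeffMap_single]

/-- constants `Z_(l) → V`. -/
def constV : Rl →+* Vring ℓ :=
  RingHom.codRestrict ((iota ℓ).comp HahnSeries.C) (Vring ℓ) (fun _ => iota_mem_Vring ℓ _)

theorem coe_constV (a : Rl) :
    ((constV ℓ a : Vring ℓ) : LaurentSeries ℚ) = algebraMap ℚ (LaurentSeries ℚ) (a : ℚ) :=
  iota_C ℓ a

theorem redV_constV (a : Rl) :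
    redV ℓ (constV ℓ a) = algebraMap (ZMod ℓ) (LaurentSeries (ZMod ℓ)) (rho0 ℓ a) := by
  rw [← red_C]
  exact redV_iota ℓ _

end Fermat.Agent.S28.QRed
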