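import Fermat.Agent.S28.QRed.Chart

/-!
# S28, algebra core, part 5: the chart algebras lie in the valuation ring `V`; the reduction map
on a chart and its kernel.
-/

set_option autoImplicit false

noncomputable section

namespace Fermat.Agent.S28.QRed

open ModularCurve ModularCurve.IgusaScheme Polynomial

variable (N : ℕ) [NeZero N] (ℓ : ℕ) [Fact ℓ.Prime]

set_option quotPrecheck false in
local notation "Rl" => ↥(GaloisRep.ratLocalizedAt ℓ)

set_option quotPrecheck false in
local notation "FF" => ↥(modularFunctionFieldFull N)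

/-- The inclusion of the function field into `Q((q))`, as a ring homomorphism. -/
def valF : FF →+* LaurentSeries ℚ := ((modularFunctionFieldFull N).val : FF →+* LaurentSeries ℚ)

omit [NeZero N] in
theorem valF_apply (x : FF) : valF N x = (x : LaurentSeries ℚ) := rfl

omit [NeZero N] in
theorem valF_injective : Function.Injective (valF N) := Subtype.val_injective

theorem valF_algebraMap (a : Rl) :
    valF N (algebraMap Rl FF a) = algebraMap ℚ (LaurentSeries ℚ) (a : ℚ) := by
  have h : (valF N).comp (algebraMap Rl FF) =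
      (algebraMap ℚ (LaurentSeries ℚ)).comp (GaloisRep.ratLocalizedAt ℓ).subtype := by
    apply IsLocalization.ringHom_ext (Ideal.span {(ℓ : ℤ)}).primeCompl
    exact RingHom.ext_int _ _
  exact RingHom.congr_fun h a

omit [NeZero N] in
theorem valF_natCast (m : ℕ) : valF N (m : FF) = (m : LaurentSeries ℚ) := map_natCast _ _

theorem natCast_ne_zero_FF : (ℓ : FF) ≠ 0 := by
  intro h
  have := congrArg (valF N) h
  rw [valF_natCast, map_zero] at this
  exact natCast_ne_zero_laurent ℓ this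

omit [NeZero N] in
/-- integrality can be tested after embedding into `Q((q))`. -/
theorem isIntegralElem_of_valF {A : Type*} [CommRing A] (φ : A →+* FF) (x : FF)
    (h : ((valF N).comp φ).IsIntegralElem (valF N x)) : φ.IsIntegralElem x := by
  obtain ⟨p, hp, hpx⟩ := h
  refine ⟨p, hp, valF_injective N ?_⟩
  rw [hom_eval₂, map_zero]
  exact hpx

/-! ### Evaluation at a coordinate `t` -/

/-- evaluation of polynomials over `Z_(l)` at `t`. -/
def evF (t : FF) : Rl[X] →+* FF := ((aeval t : Rl[X] →ₐ[Rl] FF) : Rl[X] →+* FF)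

omit [Fact ℓ.Prime] in
theorem evF_C (t : FF) (a : Rl) : evF N ℓ t (C a) = algebraMap Rl FF a := by
  simp [evF]

omit [Fact ℓ.Prime] in
theorem evF_X (t : FF) : evF N ℓ t X = t := by
  simp [evF]

theorem evF_C_lR (t : FF) : evF N ℓ t (C (lR ℓ)) = (ℓ : FF) := by
  rw [evF_C, lR, map_natCast]

/-- evaluation at `t ∈ V`, with values in `V`. -/
def evV (t : FF) (htV : valF N t ∈ Vring ℓ) : Rl[X] →+* Vring ℓ :=
  eval₂RingHom (constV ℓ) ⟨valF N t, htV⟩

theorem coe_evV (t : FF) (htV : valF N t ∈ Vring ℓ) (c : Rl[X]) :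
    ((evV N ℓ t htV c : Vring ℓ) : LaurentSeries ℚ) = valF N (evF N ℓ t c) := by
  have h : (Vring ℓ).subtype.comp (evV N ℓ t htV) = (valF N).comp (evF N ℓ t) := by
    apply Polynomial.ringHom_ext
    · intro a
      simp only [RingHom.comp_apply, evV, coe_eval₂RingHom, eval₂_C, Subring.coe_subtype,
        evF_C, valF_algebraMap]
      exact coe_constV ℓ a
    · simp only [RingHom.comp_apply, evV, coe_eval₂RingHom, eval₂_X, Subring.coe_subtype, evF_X]
  exact RingHom.congr_fun h c

theorem redV_evV (t : FF) (htV : valF N t ∈ Vring ℓ) (c : Rl[X]) :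
    redV ℓ (evV N ℓ t htV c) = aeval (redV ℓ ⟨valF N t, htV⟩) (c.map (rho0 ℓ)) := by
  have h : (redV ℓ).comp (evV N ℓ t htV) =
      ((aeval (redV ℓ ⟨valF N t, htV⟩) : (ZMod ℓ)[X] →ₐ[ZMod ℓ] LaurentSeries (ZMod ℓ)) :
        (ZMod ℓ)[X] →+* LaurentSeries (ZMod ℓ)).comp (mapRingHom (rho0 ℓ)) := by
    apply Polynomial.ringHom_ext
    · intro a
      simp only [RingHom.comp_apply, evV, coe_eval₂RingHom, eval₂_C, coe_mapRingHom, map_C,
        RingHom.coe_coe, aeval_C]
      exact redV_constV ℓ a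
    · simp only [RingHom.comp_apply, evV, coe_eval₂RingHom, eval₂_X, coe_mapRingHom, map_X,
        RingHom.coe_coe, aeval_X]
  exact RingHom.congr_fun h c

/-- If the reduction of `t` is transcendental over `F_l`, then `t` is transcendental over
`Z_(l)`. -/
theorem evF_injective (t : FF) (htV : valF N t ∈ Vring ℓ)
    (htr : ∀ c : (ZMod ℓ)[X], aeval (redV ℓ ⟨valF N t, htV⟩) c = 0 → c = 0) :
    Function.Injective (evF N ℓ t) := by
  rw [injective_iff_map_eq_zero]
  intro c hc
  by_contra hc0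
  obtain ⟨a, c', rfl, hc'⟩ := poly_exists_eq_pow_mul ℓ c hc0
  rw [map_mul, map_pow, evF_C_lR] at hc
  have h1 : evF N ℓ t c' = 0 :=
    (mul_eq_zero.mp hc).resolve_left (pow_ne_zero _ (natCast_ne_zero_FF N ℓ))
  have h2 : evV N ℓ t htV c' = 0 := Subtype.ext (by rw [coe_evV, h1, map_zero]; rfl)
  have h3 := redV_evV N ℓ t htV c'
  rw [h2, map_zero] at h3
  exact hc' (htr _ h3.symm)

/-! ### Charts inside `V` -/

theorem valF_mem_Vring_of_mem_chartAlg (S : Set FF) (hS : ∀ s ∈ S, valF N s ∈ Vring ℓ)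
    (x : FF) (hx : x ∈ chartAlg N ℓ S) : valF N x ∈ Vring ℓ := by
  have hx' : IsIntegral (Algebra.adjoin Rl S) x := hx
  obtain ⟨p, hp, hpx⟩ := hx'
  let φ : Algebra.adjoin Rl S →+* LaurentSeries ℚ :=
    (valF N).comp (algebraMap (Algebra.adjoin Rl S) FF)
  have hφ : ∀ a, φ a ∈ Vring ℓ := by
    rintro ⟨a, ha⟩
    show valF N a ∈ Vring ℓ
    induction ha using Algebra.adjoin_induction with
    | mem y hy => exact hS y hy
    | algebraMap r =>
      rw [valF_algebraMap, ← coe_constV]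
      exact (constV ℓ r).2
    | add y z _ _ hy hz => rw [map_add]; exact add_mem hy hz
    | mul y z _ _ hy hz => rw [map_mul]; exact mul_mem hy hz
  refine mem_Vring_of_isIntegralElem ℓ φ hφ (isFrac_of_mem_full ℓ N x.2) ⟨p, hp, ?_⟩
  have := congrArg (valF N) hpx
  rw [hom_eval₂, map_zero] at this
  exact this

/-- A chart algebra on generators in `V` maps to `V`. -/
def toV (S : Set FF) (hS : ∀ s ∈ S, valF N s ∈ Vring ℓ) : chartAlg N ℓ S →+* Vring ℓ :=
  RingHom.codRestrict ((valF N).comp (chartAlg N ℓ S).val.toRingHom) (Vring ℓ)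
    (fun x => valF_mem_Vring_of_mem_chartAlg N ℓ S hS x x.2)

theorem coe_toV (S : Set FF) (hS : ∀ s ∈ S, valF N s ∈ Vring ℓ) (x : chartAlg N ℓ S) :
    ((toV N ℓ S hS x : Vring ℓ) : LaurentSeries ℚ) = valF N (x : FF) := rfl

/-- Reduction mod `l` of a chart algebra. -/
def redChart (S : Set FF) (hS : ∀ s ∈ S, valF N s ∈ Vring ℓ) :
    chartAlg N ℓ S →+* LaurentSeries (ZMod ℓ) :=
  (redV ℓ).comp (toV N ℓ S hS)

/-- The kernel of the reduction map is `(l)`, provided the chart algebra is saturated in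
`V ∩ F`. -/
theorem ker_redChart (S : Set FF) (hS : ∀ s ∈ S, valF N s ∈ Vring ℓ)
    (hkey : ∀ z : FF, valF N z ∈ Vring ℓ → (ℓ : FF) * z ∈ chartAlg N ℓ S → z ∈ chartAlg N ℓ S) :
    RingHom.ker (redChart N ℓ S hS) = Ideal.span {(ℓ : chartAlg N ℓ S)} := by
  apply le_antisymm
  · intro x hx
    rw [RingHom.mem_ker] at hx
    obtain ⟨v', hv'⟩ := redV_eq_zero ℓ (toV N ℓ S hS x) hx
    rw [coe_toV, iota_lW] at hv'
    have hzx : (ℓ : FF) * ((ℓ : FF)⁻¹ * x) = x := mul_inv_cancel_left₀ (natCast_ne_zero_FF N ℓ) _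
    have hzV : valF N ((ℓ : FF)⁻¹ * x) ∈ Vring ℓ := by
      have : valF N ((ℓ : FF)⁻¹ * x) = v' := by
        apply mul_left_cancel₀ (natCast_ne_zero_laurent ℓ)
        rw [← valF_natCast N, ← map_mul, hzx, valF_natCast]
        exact hv'
      rw [this]
      exact v'.2
    have hz : (ℓ : FF)⁻¹ * x ∈ chartAlg N ℓ S := hkey _ hzV (by rw [hzx]; exact x.2)
    rw [Ideal.mem_span_singleton']
    refine ⟨⟨_, hz⟩, Subtype.ext ?_⟩
    have hcast : ((ℓ : chartAlg N ℓ S) : FF) = (ℓ : FF) := map_natCast (chartAlg N ℓ S).val ℓ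
    rw [Subalgebra.coe_mul, hcast, mul_comm]
    exact hzx
  · rw [Ideal.span_le, Set.singleton_subset_iff, SetLike.mem_coe, RingHom.mem_ker, map_natCast,
      ← map_natCast (algebraMap (ZMod ℓ) (LaurentSeries (ZMod ℓ))), ZMod.natCast_self, map_zero]

end Fermat.Agent.S28.QRed
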