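import Fermat.Agent.S28.QRed.Laurent

/-!
# S28, algebra core, part 3: generic commutative algebra lemmas.
-/

set_option autoImplicit false

noncomputable section

namespace Fermat.Agent.S28.QRed

open ModularCurve Polynomial

/-- If `s₁ z` and `s₂ z` are integral over an integrally closed domain `D` and `s₂` is a
non-zero-divisor modulo all powers of `s₁` (in the sense of `hdiv`), then `z` is integral. -/
theorem isIntegral_of_two_multiples {D F : Type*} [CommRing D] [IsDomain D]
    [IsIntegrallyClosed D] [Field F] [Algebra D F] [FaithfulSMul D F]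
    (z : F) (s₁ s₂ : D) (hs₁ : s₁ ≠ 0) (hs₂ : s₂ ≠ 0)
    (h₁ : IsIntegral D (s₁ • z)) (h₂ : IsIntegral D (s₂ • z))
    (hdiv : ∀ (k : ℕ) (a b : D), a * s₂ ^ k = b * s₁ ^ k → s₁ ^ k ∣ a) :
    IsIntegral D z := by
  classical
  let K' := FractionRing D
  letI : Algebra K' F := FractionRing.liftAlgebra D F
  haveI : IsScalarTower D K' F := FractionRing.isScalarTower_liftAlgebra D F
  have hinj : Function.Injective (algebraMap D K') := IsFractionRing.injective D K'
  have c₁ : algebraMap D K' s₁ ≠ 0 := (map_ne_zero_iff _ hinj).mpr hs₁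
  have hzK : IsIntegral K' z := by
    have h : IsIntegral K' (s₁ • z) := h₁.tower_top
    have hz : z = (algebraMap D K' s₁)⁻¹ • (s₁ • z) := by
      rw [← algebraMap_smul K' s₁ z, smul_smul, inv_mul_cancel₀ c₁, one_smul]
    rw [hz]
    exact h.smul _
  set μ := minpoly K' z with hμ
  have hμmonic : μ.Monic := minpoly.monic hzK
  have key : ∀ s : D, s ≠ 0 → IsIntegral D (s • z) → ∀ i, ∃ a : D,
      μ.coeff i * (algebraMap D K' s) ^ (μ.natDegree - i) = algebraMap D K' a := by
    intro s hs hint i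
    have c : algebraMap D K' s ≠ 0 := (map_ne_zero_iff _ hinj).mpr hs
    have heq : μ.scaleRoots (algebraMap D K' s) = minpoly K' (s • z) := by
      apply minpoly.unique
      · exact (monic_scaleRoots_iff _).mpr hμmonic
      · have := scaleRoots_aeval_eq_zero (p := μ) (a := z) (r := algebraMap D K' s)
          (minpoly.aeval K' z)
        rwa [← Algebra.smul_def, algebraMap_smul] at this
      · intro q hq hqz
        rw [degree_scaleRoots]
        have h1 := scaleRoots_aeval_eq_zero (p := q) (a := s • z)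
          (r := (algebraMap D K' s)⁻¹) hqz
        have h2 : algebraMap K' F (algebraMap D K' s)⁻¹ * (s • z) = z := by
          rw [← Algebra.smul_def, ← algebraMap_smul K' s z, smul_smul, inv_mul_cancel₀ c,
            one_smul]
        rw [h2] at h1
        have := minpoly.min K' z ((monic_scaleRoots_iff _).mpr hq) h1
        rwa [degree_scaleRoots] at this
    have h3 := minpoly.isIntegrallyClosed_eq_field_fractions' K' hint
    refine ⟨(minpoly D (s • z)).coeff i, ?_⟩
    rw [← coeff_scaleRoots, heq, h3, coeff_map]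
  have hcoeff : ∀ i, ∃ a : D, μ.coeff i = algebraMap D K' a := by
    intro i
    obtain ⟨a, ha⟩ := key s₁ hs₁ h₁ i
    obtain ⟨b, hb⟩ := key s₂ hs₂ h₂ i
    have hab : a * s₂ ^ (μ.natDegree - i) = b * s₁ ^ (μ.natDegree - i) := by
      apply hinj
      rw [map_mul, map_mul, map_pow, map_pow, ← ha, ← hb]
      ring
    obtain ⟨a', ha'⟩ := hdiv _ a b hab
    refine ⟨a', ?_⟩
    have : μ.coeff i * algebraMap D K' s₁ ^ (μ.natDegree - i) =
        algebraMap D K' a' * algebraMap D K' s₁ ^ (μ.natDegree - i) := by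
      rw [ha, ha', map_mul, map_pow]
      ring
    exact mul_right_cancel₀ (pow_ne_zero _ c₁) this
  have hlifts : μ ∈ lifts (algebraMap D K') :=
    (lifts_iff_coeff_lifts μ).mpr fun i => by
      obtain ⟨a, ha⟩ := hcoeff i
      exact ⟨a, ha.symm⟩
  obtain ⟨μ₀, hμ₀, -, hμ₀monic⟩ := lifts_and_natDegree_eq_and_monic hlifts hμmonic
  refine ⟨μ₀, hμ₀monic, ?_⟩
  have h := minpoly.aeval K' z
  rw [← hμ, ← hμ₀, aeval_map_algebraMap] at h
  exact h

variable (ℓ : ℕ) [Fact ℓ.Prime]

set_option quotPrecheck false in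
local notation "Rl" => ↥(GaloisRep.ratLocalizedAt ℓ)

theorem poly_eq_C_mul_of_map_eq_zero (c : Polynomial Rl) (h : c.map (rho0 ℓ) = 0) :
    ∃ c' : Polynomial Rl, c = C (lR ℓ) * c' := by
  have : C (lR ℓ) ∣ c := by
    rw [C_dvd_iff_dvd_coeff]
    intro i
    have hi : rho0 ℓ (c.coeff i) = 0 := by
      rw [← coeff_map, h, coeff_zero]
    obtain ⟨y, hy⟩ := (rho0_eq_zero_iff ℓ _).mp hi
    exact ⟨y, hy⟩
  exact this

theorem poly_exists_eq_pow_mul_aux (k : ℕ) : ∀ (c : Polynomial Rl) (n : ℕ),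
    ¬ lR ℓ ^ (k + 1) ∣ c.coeff n →
    ∃ (a : ℕ) (c' : Polynomial Rl), c = C (lR ℓ) ^ a * c' ∧ c'.map (rho0 ℓ) ≠ 0 := by
  induction k with
  | zero =>
    intro c n hk
    refine ⟨0, c, by simp, ?_⟩
    intro hred
    obtain ⟨g, rfl⟩ := poly_eq_C_mul_of_map_eq_zero ℓ c hred
    apply hk
    rw [coeff_C_mul, zero_add, pow_one]
    exact dvd_mul_right _ _
  | succ k ih =>
    intro c n hk
    by_cases hred : c.map (rho0 ℓ) = 0
    · obtain ⟨g, rfl⟩ := poly_eq_C_mul_of_map_eq_zero ℓ c hred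
      have hk' : ¬ lR ℓ ^ (k + 1) ∣ g.coeff n := by
        intro hd
        apply hk
        rw [coeff_C_mul, pow_succ']
        exact mul_dvd_mul_left _ hd
      obtain ⟨a, g', hg', hred'⟩ := ih g n hk'
      exact ⟨a + 1, g', by rw [hg', pow_succ', mul_assoc], hred'⟩
    · exact ⟨0, c, by simp, hred⟩

theorem poly_exists_eq_pow_mul (c : Polynomial Rl) (hc : c ≠ 0) :
    ∃ (a : ℕ) (c' : Polynomial Rl), c = C (lR ℓ) ^ a * c' ∧ c'.map (rho0 ℓ) ≠ 0 := by
  obtain ⟨n, hn⟩ : ∃ n, c.coeff n ≠ 0 := by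
    by_contra hcon
    push Not at hcon
    exact hc (Polynomial.ext fun n => by simpa using hcon n)
  obtain ⟨k, hk⟩ := finiteMultiplicity_lR ℓ hn
  exact poly_exists_eq_pow_mul_aux ℓ k c n hk

omit [Fact ℓ.Prime] in
/-- Clearing the denominators of a rational polynomial. -/
theorem exists_int_mul_poly (p : Polynomial ℚ) :
    ∃ (m : Rl) (p' : Polynomial Rl), m ≠ 0 ∧
      p'.map (GaloisRep.ratLocalizedAt ℓ).subtype = C (m : ℚ) * p := by
  induction p using Polynomial.induction_on' with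
  | add p q hp hq =>
    obtain ⟨m₁, p₁, hm₁, hp₁⟩ := hp
    obtain ⟨m₂, p₂, hm₂, hp₂⟩ := hq
    refine ⟨m₁ * m₂, C m₂ * p₁ + C m₁ * p₂, mul_ne_zero hm₁ hm₂, ?_⟩
    rw [Polynomial.map_add, Polynomial.map_mul, Polynomial.map_mul, map_C, map_C, hp₁, hp₂,
      Subring.coe_mul, C_mul]
    simp only [Subring.coe_subtype]
    ring
  | monomial n a =>
    refine ⟨⟨((a.den : ℤ) : ℚ), intCast_mem_ratLoc ℓ a.den⟩,
      monomial n ⟨(a.num : ℚ), intCast_mem_ratLoc ℓ a.num⟩, ?_, ?_⟩
    · intro h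
      have h2 := congrArg Subtype.val h
      simp at h2
    · rw [map_monomial, C_mul_monomial]
      congr 1
      show (a.num : ℚ) = ((a.den : ℤ) : ℚ) * a
      push_cast
      rw [mul_comm]
      exact (Rat.mul_den_eq_num a).symm

end Fermat.Agent.S28.QRed
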