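import Fermat.Agent.S28.QRed.ChartV

/-!
# S28, algebra core, part 6: saturation of the chart `j ≠ ∞` (the `KEY` statement), from an
abstract interface (integral generators whose reductions are independent over `F_l[j]`).
-/

set_option autoImplicit false

noncomputable section

namespace Fermat.Agent.S28.QRed

open ModularCurve ModularCurve.IgusaScheme Polynomial

variable (N : ℕ) [NeZero N] (ℓ : ℕ) [Fact ℓ.Prime]

set_option quotPrecheck false in
local notation "Rl" => ↥(GaloisRep.ratLocalizedAt ℓ)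

set_option quotPrecheck false in
local notation "FF" => ↥(modularFunctionFieldFull N)

/-! ### The coordinate `j` -/

omit [Fact ℓ.Prime] in
theorem iota_jqModC : iota ℓ (jqModC Rl) = jq := by
  rw [iota, coeffMap_jqModC, jqModC_rat]

theorem red_jqModC : red ℓ (jqModC Rl) = jqModC (ZMod ℓ) := by
  rw [red, coeffMap_jqModC]

theorem valF_jFull : valF N (jFull N) = jq := rfl

theorem jFull_mem_Vring : valF N (jFull N) ∈ Vring ℓ := by
  rw [valF_jFull, ← iota_jqModC ℓ]
  exact iota_mem_Vring ℓ _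

theorem redV_jFull :
    redV ℓ ⟨valF N (jFull N), jFull_mem_Vring N ℓ⟩ = jqModC (ZMod ℓ) := by
  have : (⟨valF N (jFull N), jFull_mem_Vring N ℓ⟩ : Vring ℓ) =
      ⟨iota ℓ (jqModC Rl), iota_mem_Vring ℓ _⟩ :=
    Subtype.ext ((valF_jFull N).trans (iota_jqModC ℓ).symm)
  rw [this, redV_iota, red_jqModC]

theorem evF_jFull_injective : Function.Injective (evF N ℓ (jFull N)) :=
  evF_injective N ℓ (jFull N) (jFull_mem_Vring N ℓ) (fun c hc => by
    rw [redV_jFull] at hc
    exact eq_zero_of_aeval_jqModC_eq_zero _ hc)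

omit [Fact ℓ.Prime] in
theorem algebraMap_lR : algebraMap Rl (LaurentSeries Rl) (lR ℓ) = lW ℓ := by
  rw [algebraMap_laurent_eq_single, lW, HahnSeries.C_apply]

omit [Fact ℓ.Prime] in
theorem iota_aeval (p : Rl[X]) : iota ℓ (aeval (jqModC Rl) p) =
    aeval jq (p.map (GaloisRep.ratLocalizedAt ℓ).subtype) := by
  have h : (iota ℓ).comp ((aeval (jqModC Rl) : Rl[X] →ₐ[Rl] LaurentSeries Rl) :
        Rl[X] →+* LaurentSeries Rl) =
      ((aeval jq : ℚ[X] →ₐ[ℚ] LaurentSeries ℚ) : ℚ[X] →+* LaurentSeries ℚ).comp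
        (mapRingHom (GaloisRep.ratLocalizedAt ℓ).subtype) := by
    apply Polynomial.ringHom_ext
    · intro a
      simp only [RingHom.comp_apply, RingHom.coe_coe, aeval_C, coe_mapRingHom, map_C]
      rw [algebraMap_laurent_eq_single, algebraMap_laurent_eq_single, iota, coeffMap_single]
    · simp only [RingHom.comp_apply, RingHom.coe_coe, aeval_X, coe_mapRingHom, map_X]
      exact iota_jqModC ℓ
  exact RingHom.congr_fun h p

theorem red_aeval (p : Rl[X]) : red ℓ (aeval (jqModC Rl) p) =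
    aeval (jqModC (ZMod ℓ)) (p.map (rho0 ℓ)) := by
  have h : (red ℓ).comp ((aeval (jqModC Rl) : Rl[X] →ₐ[Rl] LaurentSeries Rl) :
        Rl[X] →+* LaurentSeries Rl) =
      ((aeval (jqModC (ZMod ℓ)) : (ZMod ℓ)[X] →ₐ[ZMod ℓ] LaurentSeries (ZMod ℓ)) :
        (ZMod ℓ)[X] →+* LaurentSeries (ZMod ℓ)).comp (mapRingHom (rho0 ℓ)) := by
    apply Polynomial.ringHom_ext
    · intro a
      simp only [RingHom.comp_apply, RingHom.coe_coe, aeval_C, coe_mapRingHom, map_C]
      rw [algebraMap_laurent_eq_single, algebraMap_laurent_eq_single, red, coeffMap_single]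
    · simp only [RingHom.comp_apply, RingHom.coe_coe, aeval_X, coe_mapRingHom, map_X]
      exact red_jqModC ℓ
  exact RingHom.congr_fun h p

theorem valF_evF_jFull (c : Rl[X]) :
    valF N (evF N ℓ (jFull N) c) = iota ℓ (aeval (jqModC Rl) c) := by
  have h : (valF N).comp (evF N ℓ (jFull N)) =
      (iota ℓ).comp ((aeval (jqModC Rl) : Rl[X] →ₐ[Rl] LaurentSeries Rl) :
        Rl[X] →+* LaurentSeries Rl) := by
    apply Polynomial.ringHom_ext
    · intro a
      simp only [RingHom.comp_apply, RingHom.coe_coe, aeval_C, evF_C, valF_algebraMap]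
      rw [algebraMap_laurent_eq_single, algebraMap_laurent_eq_single, iota, coeffMap_single]
      rfl
    · simp only [RingHom.comp_apply, RingHom.coe_coe, aeval_X, evF_X]
      exact (iota_jqModC ℓ).symm
  exact RingHom.congr_fun h c

/-! ### The interface with the modular part -/

/-- The interface: a finite family `β` of Laurent series over `Z_(l)` which are integral over
`Z_(l)[j]`, span the function field over `Q(j)`, and whose reductions mod `l` are linearly
independent over `F_l[j]`. -/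
structure Interface (n : ℕ) (β : Fin n → LaurentSeries Rl) : Prop where
  integral : ∀ i, ((valF N).comp (evF N ℓ (jFull N))).IsIntegralElem (iota ℓ (β i))
  indep : ∀ a : Fin n → (ZMod ℓ)[X],
    ∑ i, aeval (jqModC (ZMod ℓ)) (a i) * red ℓ (β i) = 0 → a = 0
  span : ∀ x : LaurentSeries ℚ, x ∈ modularFunctionFieldFull N →
    ∃ (b : ℚ[X]) (a : Fin n → ℚ[X]), b ≠ 0 ∧
      x * aeval jq b = ∑ i, aeval jq (a i) * iota ℓ (β i)

omit [Fact ℓ.Prime] in
theorem exists_common_int_mul {n : ℕ} (b : ℚ[X]) (a : Fin n → ℚ[X]) :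
    ∃ (m : Rl) (b' : Rl[X]) (a' : Fin n → Rl[X]), m ≠ 0 ∧
      b'.map (GaloisRep.ratLocalizedAt ℓ).subtype = C (m : ℚ) * b ∧
      ∀ i, (a' i).map (GaloisRep.ratLocalizedAt ℓ).subtype = C (m : ℚ) * a i := by
  obtain ⟨mb, b₀, hmb, hb₀⟩ := exists_int_mul_poly ℓ b
  choose m a₀ hm ha₀ using fun i => exists_int_mul_poly ℓ (a i)
  refine ⟨mb * ∏ j, m j, C (∏ j, m j) * b₀,
    fun i => C (mb * ∏ j ∈ Finset.univ.erase i, m j) * a₀ i,
    mul_ne_zero hmb (Finset.prod_ne_zero_iff.mpr fun j _ => hm j), ?_, ?_⟩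
  · rw [Polynomial.map_mul, map_C, hb₀, Subring.coe_mul, C_mul]
    simp only [Subring.coe_subtype]
    ring
  · intro i
    rw [Polynomial.map_mul, map_C, ha₀ i,
      ← Finset.mul_prod_erase Finset.univ m (Finset.mem_univ i)]
    simp only [Subring.coe_subtype, Subring.coe_mul, C_mul]
    ring

theorem key_induction (n : ℕ) (β : Fin n → LaurentSeries Rl)
    (hindep : ∀ a : Fin n → (ZMod ℓ)[X],
      ∑ i, aeval (jqModC (ZMod ℓ)) (a i) * red ℓ (β i) = 0 → a = 0)
    (w : Ploc ℓ) (k : ℕ) : ∀ (d₀ : Rl[X]) (a : Fin n → Rl[X]),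
      toQ ℓ w * iota ℓ (aeval (jqModC Rl) (C (lR ℓ) ^ k * d₀)) =
        iota ℓ (∑ i, aeval (jqModC Rl) (a i) * β i) →
      ∃ a' : Fin n → Rl[X], toQ ℓ w * iota ℓ (aeval (jqModC Rl) d₀) =
        iota ℓ (∑ i, aeval (jqModC Rl) (a' i) * β i) := by
  induction k with
  | zero =>
    intro d₀ a h
    exact ⟨a, by rwa [pow_zero, one_mul] at h⟩
  | succ k ih =>
    intro d₀ a h
    have e1 : aeval (jqModC Rl) (C (lR ℓ) ^ (k + 1) * d₀) =
        lW ℓ * aeval (jqModC Rl) (C (lR ℓ) ^ k * d₀) := by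
      rw [pow_succ', mul_assoc, map_mul, aeval_C, algebraMap_lR]
    rw [e1] at h
    have h2 : w * algebraMap (LaurentSeries Rl) (Ploc ℓ)
          (lW ℓ * aeval (jqModC Rl) (C (lR ℓ) ^ k * d₀)) =
        algebraMap (LaurentSeries Rl) (Ploc ℓ) (∑ i, aeval (jqModC Rl) (a i) * β i) := by
      apply toQ_injective ℓ
      rw [map_mul, toQ_algebraMap, toQ_algebraMap]
      exact h
    have h3 := congrArg (toK ℓ) h2
    rw [map_mul, toK_algebraMap, toK_algebraMap, map_mul, red_lW, zero_mul, mul_zero,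
      map_sum] at h3
    have h4 : ∑ i, aeval (jqModC (ZMod ℓ)) ((a i).map (rho0 ℓ)) * red ℓ (β i) = 0 := by
      refine Eq.trans (Finset.sum_congr rfl fun i _ => ?_) h3.symm
      rw [map_mul, red_aeval]
    have h5 := hindep _ h4
    have h6 : ∀ i, ∃ c, a i = C (lR ℓ) * c := fun i =>
      poly_eq_C_mul_of_map_eq_zero ℓ (a i) (congrFun h5 i)
    choose a' ha' using h6
    apply ih d₀ a'
    apply mul_left_cancel₀ (iota_ne_zero ℓ (lW_ne_zero ℓ))
    rw [← map_mul (iota ℓ) (lW ℓ), Finset.mul_sum]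
    have h7 : ∑ i, lW ℓ * (aeval (jqModC Rl) (a' i) * β i) =
        ∑ i, aeval (jqModC Rl) (a i) * β i := by
      refine Finset.sum_congr rfl fun i _ => ?_
      rw [ha' i, map_mul, aeval_C, algebraMap_lR, mul_assoc]
    rw [h7, ← h, map_mul (iota ℓ) (lW ℓ)]
    ring

/-- **KEY for the chart `j ≠ ∞`**: the chart algebra is saturated in `V ∩ F`. -/
theorem key_fin {n : ℕ} {β : Fin n → LaurentSeries Rl} (H : Interface N ℓ n β) (z : FF)
    (hzV : valF N z ∈ Vring ℓ) (hz : (ℓ : FF) * z ∈ chartAlgFin N ℓ) :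
    z ∈ chartAlgFin N ℓ := by
  obtain ⟨b, a, hb, hrel⟩ := H.span (valF N z) z.2
  obtain ⟨m, b', a', hm, hb', ha'⟩ := exists_common_int_mul ℓ b a
  have hmQ : (m : ℚ) ≠ 0 := fun h => hm (Subtype.ext h)
  have hb'0 : b' ≠ 0 := by
    intro h
    rw [h, Polynomial.map_zero] at hb'
    exact (mul_ne_zero (C_ne_zero.mpr hmQ) hb) hb'.symm
  have hrel' : valF N z * iota ℓ (aeval (jqModC Rl) b') =
      iota ℓ (∑ i, aeval (jqModC Rl) (a' i) * β i) := by
    rw [iota_aeval, hb', map_sum]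
    simp only [map_mul, iota_aeval, ha', aeval_C]
    rw [mul_left_comm, hrel, Finset.mul_sum]
    exact Finset.sum_congr rfl fun i _ => by ring
  obtain ⟨k, d₀, rfl, hd₀⟩ := poly_exists_eq_pow_mul ℓ b' hb'0
  obtain ⟨w, hw⟩ := hzV
  rw [← hw] at hrel'
  obtain ⟨a'', ha''⟩ := key_induction ℓ n β H.indep w k d₀ a' hrel'
  rw [hw] at ha''
  have hd₀0 : d₀ ≠ 0 := by
    rintro rfl
    exact hd₀ (Polynomial.map_zero _)
  have h₁ : (evF N ℓ (jFull N)).IsIntegralElem (evF N ℓ (jFull N) (C (lR ℓ)) * z) := by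
    rw [evF_C_lR]
    exact (isIntegral_adjoin_singleton_iff (jFull N) _).mp ((mem_chartAlg_iff N ℓ).mp hz)
  have h₂ : (evF N ℓ (jFull N)).IsIntegralElem (evF N ℓ (jFull N) d₀ * z) := by
    apply isIntegralElem_of_valF
    rw [map_mul, valF_evF_jFull, mul_comm, ha'', map_sum]
    refine Finset.sum_induction _ _ (fun _ _ => RingHom.IsIntegralElem.add _)
      (RingHom.isIntegralElem_zero _) ?_
    intro i _
    rw [map_mul, ← valF_evF_jFull N]
    exact RingHom.IsIntegralElem.mul _ (RingHom.isIntegralElem_map _) (H.integral i)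
  have h := isIntegralElem_of_two_multiples (evF N ℓ (jFull N)) (evF_jFull_injective N ℓ) z
    (C (lR ℓ)) d₀ (C_lR_ne_zero ℓ) hd₀0 h₁ h₂
    (fun k a b hab => poly_pow_dvd_of_mul_eq ℓ k a b (d₀ ^ k)
      (by rw [Polynomial.map_pow]; exact pow_ne_zero _ hd₀) hab)
  exact (mem_chartAlg_iff N ℓ).mpr ((isIntegral_adjoin_singleton_iff (jFull N) z).mpr h)

end Fermat.Agent.S28.QRed
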