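import Fermat.Agent.S28.QRed.Base

/-!
# S28, algebra core, part 2: Laurent series over `Z_(l)`, reduction mod `l`, and the
valuation ring `V ⊂ Q((q))` of quotients `f/g` with `f, g ∈ Z_(l)((q))`, `g ≢ 0 mod l`.
-/

set_option autoImplicit false

noncomputable section

namespace Fermat.Agent.S28.QRed

open ModularCurve

variable (ℓ : ℕ) [Fact ℓ.Prime]

set_option quotPrecheck false in
local notation "Rl" => ↥(GaloisRep.ratLocalizedAt ℓ)

/-- Coefficientwise inclusion `Z_(l)((q)) → Q((q))`. -/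
def iota : LaurentSeries Rl →+* LaurentSeries ℚ := coeffMap (GaloisRep.ratLocalizedAt ℓ).subtype

/-- Coefficientwise reduction `Z_(l)((q)) → F_l((q))`. -/
def red : LaurentSeries Rl →+* LaurentSeries (ZMod ℓ) := coeffMap (rho0 ℓ)

omit [Fact ℓ.Prime] in
@[simp] theorem iota_coeff (f : LaurentSeries Rl) (n : ℤ) :
    (iota ℓ f).coeff n = (f.coeff n : ℚ) := rfl

@[simp] theorem red_coeff (f : LaurentSeries Rl) (n : ℤ) :
    (red ℓ f).coeff n = rho0 ℓ (f.coeff n) := rfl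

omit [Fact ℓ.Prime] in
theorem iota_injective : Function.Injective (iota ℓ) := by
  intro f g h
  ext n
  have := congrArg (fun x => x.coeff n) h
  simpa using this

omit [Fact ℓ.Prime] in
theorem iota_ne_zero {f : LaurentSeries Rl} (hf : f ≠ 0) : iota ℓ f ≠ 0 := fun h =>
  hf (iota_injective ℓ (by rw [h, map_zero]))

/-- The prime `l` as a constant Laurent series over `Z_(l)`. -/
def lW : LaurentSeries Rl := HahnSeries.C (lR ℓ)

theorem red_lW : red ℓ (lW ℓ) = 0 := by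
  rw [lW, red, HahnSeries.C_apply, coeffMap_single, rho0_lR, HahnSeries.single_eq_zero]

omit [Fact ℓ.Prime] in
theorem coeff_lW_mul (g : LaurentSeries Rl) (n : ℤ) :
    (lW ℓ * g).coeff n = lR ℓ * g.coeff n := by
  rw [lW, HahnSeries.C_mul_eq_smul, HahnSeries.coeff_smul, smul_eq_mul]

theorem lW_ne_zero : lW ℓ ≠ 0 := by
  intro h
  have := congrArg (fun x => x.coeff 0) h
  simp only [lW, HahnSeries.C_apply, HahnSeries.coeff_single_same, HahnSeries.coeff_zero] at this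
  exact lR_ne_zero ℓ this

theorem exists_eq_lW_mul_of_red_eq_zero (f : LaurentSeries Rl) (h : red ℓ f = 0) :
    ∃ g : LaurentSeries Rl, f = lW ℓ * g := by
  have h' : ∀ n, ∃ y, f.coeff n = lR ℓ * y := fun n =>
    (rho0_eq_zero_iff ℓ _).mp (by
      have := congrArg (fun g => g.coeff n) h
      simpa using this)
  choose y hy using h'
  have hsupp : Function.support y ⊆ f.support := by
    intro n hn
    rw [Function.mem_support] at hn
    rw [HahnSeries.mem_support, hy n]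
    exact mul_ne_zero (lR_ne_zero ℓ) hn
  refine ⟨⟨y, f.isPWO_support.mono hsupp⟩, ?_⟩
  ext n
  rw [coeff_lW_mul, hy n]

theorem exists_eq_pow_mul_aux (k : ℕ) : ∀ (f : LaurentSeries Rl) (n : ℤ),
    ¬ lR ℓ ^ (k + 1) ∣ f.coeff n →
    ∃ (a : ℕ) (g : LaurentSeries Rl), f = lW ℓ ^ a * g ∧ red ℓ g ≠ 0 := by
  induction k with
  | zero =>
    intro f n hk
    refine ⟨0, f, by simp, ?_⟩
    intro hred
    obtain ⟨g, rfl⟩ := exists_eq_lW_mul_of_red_eq_zero ℓ f hred
    apply hk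
    rw [coeff_lW_mul, zero_add, pow_one]
    exact dvd_mul_right _ _
  | succ k ih =>
    intro f n hk
    by_cases hred : red ℓ f = 0
    · obtain ⟨g, rfl⟩ := exists_eq_lW_mul_of_red_eq_zero ℓ f hred
      have hk' : ¬ lR ℓ ^ (k + 1) ∣ g.coeff n := by
        intro hd
        apply hk
        rw [coeff_lW_mul, pow_succ']
        exact mul_dvd_mul_left _ hd
      obtain ⟨a, g', hg', hred'⟩ := ih g n hk'
      exact ⟨a + 1, g', by rw [hg', pow_succ', mul_assoc], hred'⟩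
    · exact ⟨0, f, by simp, hred⟩

theorem exists_eq_pow_mul (f : LaurentSeries Rl) (hf : f ≠ 0) :
    ∃ (a : ℕ) (g : LaurentSeries Rl), f = lW ℓ ^ a * g ∧ red ℓ g ≠ 0 := by
  obtain ⟨n, hn⟩ : ∃ n, f.coeff n ≠ 0 := by
    by_contra hcon
    push Not at hcon
    exact hf (by ext n; simpa using hcon n)
  obtain ⟨k, hk⟩ := finiteMultiplicity_lR ℓ hn
  exact exists_eq_pow_mul_aux ℓ k f n hk

/-! ### The localisation at the prime `l` and the valuation ring `V` -/

instance ker_red_isPrime : (RingHom.ker (red ℓ)).IsPrime := RingHom.ker_isPrime _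

/-- `Z_(l)((q))` localised at the prime ideal `(l)`. -/
abbrev Ploc : Type := Localization.AtPrime (RingHom.ker (red ℓ))

theorem isUnit_red_of_mem (y : (RingHom.ker (red ℓ)).primeCompl) : IsUnit (red ℓ y) :=
  IsUnit.mk0 _ (fun h => y.2 (RingHom.mem_ker.mpr h))

theorem isUnit_iota_of_mem (y : (RingHom.ker (red ℓ)).primeCompl) : IsUnit (iota ℓ y) :=
  IsUnit.mk0 _ (fun h => y.2 (by
    have : (y : LaurentSeries Rl) = 0 := iota_injective ℓ (by rw [h, map_zero])
    rw [this]; exact zero_mem _))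

/-- The residue map of the localisation. -/
def toK : Ploc ℓ →+* LaurentSeries (ZMod ℓ) := IsLocalization.lift (isUnit_red_of_mem ℓ)

/-- The embedding of the localisation into `Q((q))`. -/
def toQ : Ploc ℓ →+* LaurentSeries ℚ := IsLocalization.lift (isUnit_iota_of_mem ℓ)

theorem toQ_algebraMap (f : LaurentSeries Rl) :
    toQ ℓ (algebraMap (LaurentSeries Rl) (Ploc ℓ) f) = iota ℓ f :=
  IsLocalization.lift_eq _ _

theorem toK_algebraMap (f : LaurentSeries Rl) :
    toK ℓ (algebraMap (LaurentSeries Rl) (Ploc ℓ) f) = red ℓ f :=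
  IsLocalization.lift_eq _ _

theorem toQ_injective : Function.Injective (toQ ℓ) := by
  rw [toQ, IsLocalization.lift_injective_iff]
  intro x y
  constructor
  · intro h
    have := congrArg (toQ ℓ) h
    rwa [toQ_algebraMap, toQ_algebraMap] at this
  · intro h
    rw [iota_injective ℓ h]

theorem toQ_mk'_mul (f : LaurentSeries Rl) (s : (RingHom.ker (red ℓ)).primeCompl) :
    toQ ℓ (IsLocalization.mk' (Ploc ℓ) f s) * iota ℓ s = iota ℓ f := by
  rw [← toQ_algebraMap, ← map_mul, IsLocalization.mk'_spec, toQ_algebraMap]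

theorem toK_eq_zero (z : Ploc ℓ) (h : toK ℓ z = 0) :
    ∃ z' : Ploc ℓ, z = algebraMap (LaurentSeries Rl) (Ploc ℓ) (lW ℓ) * z' := by
  obtain ⟨⟨f, s⟩, rfl⟩ := IsLocalization.mk'_surjective (RingHom.ker (red ℓ)).primeCompl z
  have hf : red ℓ f = 0 := by
    have := (IsLocalization.lift_mk'_spec (isUnit_red_of_mem ℓ) f 0 s).mp h
    simpa using this
  obtain ⟨g, rfl⟩ := exists_eq_lW_mul_of_red_eq_zero ℓ f hf
  exact ⟨IsLocalization.mk' _ g s, (IsLocalization.mul_mk'_eq_mk'_of_mul _ _ _).symm⟩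

theorem toK_lW : toK ℓ (algebraMap (LaurentSeries Rl) (Ploc ℓ) (lW ℓ)) = 0 := by
  rw [toK_algebraMap, red_lW]

/-- The valuation-ring dichotomy: for `x = f/g`, either `x ∈ V` or `x⁻¹ ∈ lV`. -/
theorem valuation_dichotomy (f g : LaurentSeries Rl) (hg : g ≠ 0) :
    (∃ z : Ploc ℓ, toQ ℓ z * iota ℓ g = iota ℓ f) ∨
      (∃ z : Ploc ℓ, toK ℓ z = 0 ∧ toQ ℓ z * iota ℓ f = iota ℓ g) := by
  by_cases hf : f = 0
  · left
    exact ⟨0, by simp [hf]⟩
  obtain ⟨a, f', rfl, hf'⟩ := exists_eq_pow_mul ℓ f hf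
  obtain ⟨b, g', rfl, hg'⟩ := exists_eq_pow_mul ℓ g hg
  have hfm : f' ∈ (RingHom.ker (red ℓ)).primeCompl := fun h => hf' (RingHom.mem_ker.mp h)
  have hgm : g' ∈ (RingHom.ker (red ℓ)).primeCompl := fun h => hg' (RingHom.mem_ker.mp h)
  rcases le_or_gt b a with hab | hab
  · left
    refine ⟨algebraMap _ (Ploc ℓ) (lW ℓ ^ (a - b)) * IsLocalization.mk' (Ploc ℓ) f' ⟨g', hgm⟩, ?_⟩
    have h1 := toQ_mk'_mul ℓ f' ⟨g', hgm⟩
    simp only at h1
    rw [map_mul, toQ_algebraMap, map_mul (iota ℓ), map_mul (iota ℓ), ← h1]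
    have h2 : lW ℓ ^ a = lW ℓ ^ (a - b) * lW ℓ ^ b := by
      rw [← pow_add, Nat.sub_add_cancel hab]
    rw [h2, map_mul]
    ring
  · right
    refine ⟨algebraMap _ (Ploc ℓ) (lW ℓ ^ (b - a)) * IsLocalization.mk' (Ploc ℓ) g' ⟨f', hfm⟩,
      ?_, ?_⟩
    · rw [map_mul, map_pow, map_pow, toK_lW, zero_pow (by omega), zero_mul]
    · have h1 := toQ_mk'_mul ℓ g' ⟨f', hfm⟩
      simp only at h1
      rw [map_mul, toQ_algebraMap, map_mul (iota ℓ), map_mul (iota ℓ), ← h1]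
      have h2 : lW ℓ ^ b = lW ℓ ^ (b - a) * lW ℓ ^ a := by
        rw [← pow_add, Nat.sub_add_cancel hab.le]
      rw [h2, map_mul]
      ring

/-- The valuation ring `V ⊂ Q((q))`. -/
def Vring : Subring (LaurentSeries ℚ) :=
  RingHom.range (R := Ploc ℓ) (S := LaurentSeries ℚ) (toQ ℓ)

theorem mem_Vring_iff (x : LaurentSeries ℚ) : x ∈ Vring ℓ ↔ ∃ z : Ploc ℓ, toQ ℓ z = x := Iff.rfl

theorem iota_mem_Vring (f : LaurentSeries Rl) : iota ℓ f ∈ Vring ℓ :=
  ⟨algebraMap _ _ f, toQ_algebraMap ℓ f⟩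

/-- The localisation is isomorphic to `V`. -/
def toQEquiv : Ploc ℓ ≃+* Vring ℓ :=
  RingEquiv.ofBijective (RingHom.rangeRestrict (R := Ploc ℓ) (S := LaurentSeries ℚ) (toQ ℓ))
    ⟨fun x y h => toQ_injective ℓ (congrArg Subtype.val h),
      RingHom.rangeRestrict_surjective (R := Ploc ℓ) (S := LaurentSeries ℚ) (toQ ℓ)⟩

theorem coe_toQEquiv (z : Ploc ℓ) : ((toQEquiv ℓ z : Vring ℓ) : LaurentSeries ℚ) = toQ ℓ z := rfl

/-- Reduction mod `l` on the valuation ring `V`. -/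
def redV : Vring ℓ →+* LaurentSeries (ZMod ℓ) := (toK ℓ).comp (toQEquiv ℓ).symm.toRingHom

theorem redV_eq (v : Vring ℓ) (z : Ploc ℓ) (h : toQ ℓ z = v) : redV ℓ v = toK ℓ z := by
  have : v = toQEquiv ℓ z := Subtype.ext (by rw [coe_toQEquiv, h])
  rw [this, redV]
  simp

theorem redV_iota (f : LaurentSeries Rl) : redV ℓ ⟨iota ℓ f, iota_mem_Vring ℓ f⟩ = red ℓ f := by
  rw [redV_eq ℓ _ (algebraMap _ _ f) (toQ_algebraMap ℓ f), toK_algebraMap]

theorem redV_eq_zero (v : Vring ℓ) (h : redV ℓ v = 0) :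
    ∃ v' : Vring ℓ, (v : LaurentSeries ℚ) = iota ℓ (lW ℓ) * v' := by
  obtain ⟨z, hz⟩ := v.2
  rw [redV_eq ℓ v z hz] at h
  obtain ⟨z', rfl⟩ := toK_eq_zero ℓ z h
  refine ⟨toQEquiv ℓ z', ?_⟩
  rw [coe_toQEquiv, ← hz, map_mul, toQ_algebraMap]

/-- Elements of `Q((q))` that are quotients of Laurent series over `Z_(l)`. -/
def IsFrac (x : LaurentSeries ℚ) : Prop :=
  ∃ f g : LaurentSeries Rl, g ≠ 0 ∧ x * iota ℓ g = iota ℓ f

theorem isFrac_iota (f : LaurentSeries Rl) : IsFrac ℓ (iota ℓ f) :=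
  ⟨f, 1, one_ne_zero, by simp⟩

theorem IsFrac.add {x y : LaurentSeries ℚ} (hx : IsFrac ℓ x) (hy : IsFrac ℓ y) :
    IsFrac ℓ (x + y) := by
  obtain ⟨f₁, g₁, hg₁, h₁⟩ := hx
  obtain ⟨f₂, g₂, hg₂, h₂⟩ := hy
  refine ⟨f₁ * g₂ + f₂ * g₁, g₁ * g₂, mul_ne_zero hg₁ hg₂, ?_⟩
  simp only [map_mul, map_add, ← h₁, ← h₂]
  ring

theorem IsFrac.mul {x y : LaurentSeries ℚ} (hx : IsFrac ℓ x) (hy : IsFrac ℓ y) :
    IsFrac ℓ (x * y) := by
  obtain ⟨f₁, g₁, hg₁, h₁⟩ := hx
  obtain ⟨f₂, g₂, hg₂, h₂⟩ := hy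
  refine ⟨f₁ * f₂, g₁ * g₂, mul_ne_zero hg₁ hg₂, ?_⟩
  simp only [map_mul, ← h₁, ← h₂]
  ring

theorem IsFrac.inv {x : LaurentSeries ℚ} (hx : IsFrac ℓ x) : IsFrac ℓ x⁻¹ := by
  obtain ⟨f, g, hg, h⟩ := hx
  by_cases hx0 : x = 0
  · rw [hx0, inv_zero]
    exact ⟨0, 1, one_ne_zero, by simp⟩
  · have hf : f ≠ 0 := by
      rintro rfl
      rw [map_zero] at h
      rcases mul_eq_zero.mp h with h | h
      · exact hx0 h
      · exact iota_ne_zero ℓ hg h
    refine ⟨g, f, hf, ?_⟩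
    rw [← h, ← mul_assoc, inv_mul_cancel₀ hx0, one_mul]

theorem isFrac_algebraMap (c : ℚ) : IsFrac ℓ (algebraMap ℚ (LaurentSeries ℚ) c) := by
  refine ⟨HahnSeries.C (⟨(c.num : ℚ), intCast_mem_ratLoc ℓ c.num⟩ : Rl),
    HahnSeries.C (⟨((c.den : ℤ) : ℚ), intCast_mem_ratLoc ℓ c.den⟩ : Rl), ?_, ?_⟩
  · intro h
    have := congrArg (fun x => x.coeff 0) h
    simp only [HahnSeries.C_apply, HahnSeries.coeff_single_same, HahnSeries.coeff_zero] at this
    have h2 := congrArg Subtype.val this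
    simp at h2
  · rw [algebraMap_apply_eq_single, iota, HahnSeries.C_apply, HahnSeries.C_apply, coeffMap_single,
      coeffMap_single, HahnSeries.single_mul_single, zero_add]
    congr 1
    show c * ((c.den : ℤ) : ℚ) = (c.num : ℚ)
    push_cast
    exact Rat.mul_den_eq_num c

theorem isFrac_of_mem_full (N : ℕ) [NeZero N] {x : LaurentSeries ℚ}
    (hx : x ∈ modularFunctionFieldFull N) : IsFrac ℓ x := by
  rw [modularFunctionFieldFull] at hx
  induction hx using IntermediateField.adjoin_induction with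
  | mem x hx =>
    obtain ⟨d, hd, -, rfl⟩ := hx
    have : qExpand ℚ d jq = iota ℓ (qExpand Rl d (jqModC Rl)) := by
      rw [iota, coeffMap_qExpand, coeffMap_jqModC, jqModC_rat]
    rw [this]
    exact isFrac_iota ℓ _
  | algebraMap c => exact isFrac_algebraMap ℓ c
  | add x y _ _ hx hy => exact hx.add ℓ hy
  | inv x _ hx => exact hx.inv ℓ
  | mul x y _ _ hx hy => exact hx.mul ℓ hy

/-- `V` is integrally closed in the field of fractions: a fraction satisfying a monic equation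
with coefficients in `V` lies in `V`. -/
theorem mem_Vring_of_monic_relation {x : LaurentSeries ℚ} (hx : IsFrac ℓ x) (n : ℕ)
    (c : ℕ → LaurentSeries ℚ) (hc : ∀ k, c k ∈ Vring ℓ)
    (h : x ^ n = ∑ k ∈ Finset.range n, c k * x ^ k) : x ∈ Vring ℓ := by
  obtain ⟨f, g, hg, hfg⟩ := hx
  have hg' := iota_ne_zero ℓ hg
  rcases valuation_dichotomy ℓ f g hg with ⟨z, hz⟩ | ⟨z, hz0, hz⟩
  · refine ⟨z, ?_⟩
    rw [← hfg] at hz
    exact mul_right_cancel₀ hg' hz
  · exfalso
    have hzx : toQ ℓ z * x = 1 := by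
      apply mul_right_cancel₀ hg'
      rw [mul_assoc, hfg, hz, one_mul]
    choose w hw using hc
    have key : toQ ℓ (∑ k ∈ Finset.range n, w k * z ^ (n - k)) = toQ ℓ 1 := by
      rw [map_one, map_sum]
      calc ∑ k ∈ Finset.range n, toQ ℓ (w k * z ^ (n - k))
          = ∑ k ∈ Finset.range n, toQ ℓ z ^ n * (c k * x ^ k) := by
            refine Finset.sum_congr rfl fun k hk => ?_
            have hk' : k ≤ n := (Finset.mem_range.mp hk).le
            rw [map_mul, map_pow, hw k]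
            have : toQ ℓ z ^ n = toQ ℓ z ^ (n - k) * toQ ℓ z ^ k := by
              rw [← pow_add, Nat.sub_add_cancel hk']
            rw [this]
            calc c k * toQ ℓ z ^ (n - k) = c k * toQ ℓ z ^ (n - k) * (toQ ℓ z * x) ^ k := by
                  rw [hzx, one_pow, mul_one]
              _ = toQ ℓ z ^ (n - k) * toQ ℓ z ^ k * (c k * x ^ k) := by ring
        _ = toQ ℓ z ^ n * x ^ n := by rw [← Finset.mul_sum, ← h]
        _ = 1 := by rw [← mul_pow, hzx, one_pow]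
    have key2 := congrArg (toK ℓ) (toQ_injective ℓ key)
    rw [map_one, map_sum] at key2
    have : ∑ k ∈ Finset.range n, toK ℓ (w k * z ^ (n - k)) = 0 := by
      refine Finset.sum_eq_zero fun k hk => ?_
      have hk' : n - k ≠ 0 := by
        have := Finset.mem_range.mp hk
        omega
      rw [map_mul, map_pow, hz0, zero_pow hk', mul_zero]
    rw [this] at key2
    exact zero_ne_one key2

/-- Integral elements over a ring mapping into `V` lie in `V` (if they are fractions). -/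
theorem mem_Vring_of_isIntegralElem {A : Type*} [CommRing A] (φ : A →+* LaurentSeries ℚ)
    (hφ : ∀ a, φ a ∈ Vring ℓ) {x : LaurentSeries ℚ} (hx : IsFrac ℓ x)
    (hint : φ.IsIntegralElem x) : x ∈ Vring ℓ := by
  obtain ⟨p, hp, hpx⟩ := hint
  refine mem_Vring_of_monic_relation ℓ hx p.natDegree (fun k => -φ (p.coeff k))
    (fun k => neg_mem (hφ _)) ?_
  rw [Polynomial.eval₂_eq_sum_range, Finset.sum_range_succ, hp.coeff_natDegree, map_one,
    one_mul] at hpx
  rw [eq_neg_of_add_eq_zero_right hpx, ← Finset.sum_neg_distrib]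
  exact Finset.sum_congr rfl fun k _ => by ring

end Fermat.Agent.S28.QRed
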